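import Mathlib

set_option autoImplicit false

namespace Fermat.Agent.Lib.Count

variable (K : Type*) [Field K] {G : Type*} {X : Type*} [Group G] [MulAction G X]

/-- Functions on `X` that are invariant under a single element `g`. -/
def invariantFunctions (g : G) : Submodule K (X → K) where
  carrier := {v | ∀ x, v (g • x) = v x}
  add_mem' := fun {a b} ha hb x => by simp only [Pi.add_apply, ha x, hb x]
  zero_mem' := fun _ => rfl
  smul_mem' := fun c v hv x => by simp only [Pi.smul_apply, hv x]

variable {K}

theorem mem_invariantFunctions {g : G} {v : X → K} :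
    v ∈ invariantFunctions K g ↔ ∀ x, v (g • x) = v x := Iff.rfl

theorem apply_inv_smul_of_mem {g : G} {v : X → K} (hv : v ∈ invariantFunctions K g) (x : X) :
    v (g⁻¹ • x) = v x := by
  have := hv (g⁻¹ • x)
  rw [smul_inv_smul] at this
  exact this.symm

theorem apply_zpow_smul_of_mem {g : G} {v : X → K} (hv : v ∈ invariantFunctions K g) (n : ℤ)
    (x : X) : v (g ^ n • x) = v x := by
  induction n using Int.induction_on with
  | zero => simp
  | succ n ih => rw [add_comm, zpow_add, zpow_one, mul_smul, hv, ih]
  | pred n ih => rw [sub_eq_add_neg, add_comm, zpow_add, zpow_neg_one, mul_smul,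
      apply_inv_smul_of_mem hv, ih]

theorem apply_eq_of_orbitRel {g : G} {v : X → K} (hv : v ∈ invariantFunctions K g) {x y : X}
    (h : (MulAction.orbitRel (Subgroup.zpowers g) X) x y) : v x = v y := by
  rw [MulAction.orbitRel_apply] at h
  obtain ⟨⟨s, n, rfl⟩, rfl⟩ := h
  exact apply_zpow_smul_of_mem hv n y

variable (K)

/-- `g`-invariant functions are the functions on the orbit space of `⟨g⟩`. -/
noncomputable def invariantFunctionsEquiv (g : G) :
    invariantFunctions (X := X) K g ≃ₗ[K]
      (MulAction.orbitRel.Quotient (Subgroup.zpowers g) X → K) where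
  toFun v := fun q => Quotient.liftOn' q v.1 (fun _ _ h => apply_eq_of_orbitRel v.2 h)
  map_add' v w := by
    funext q
    induction q using Quotient.inductionOn' with
    | h x => rfl
  map_smul' c v := by
    funext q
    induction q using Quotient.inductionOn' with
    | h x => rfl
  invFun w := ⟨fun x => w (Quotient.mk'' x), fun x => by
    refine congrArg w (Quotient.sound' ?_)
    rw [MulAction.orbitRel_apply]
    exact ⟨⟨g, Subgroup.mem_zpowers g⟩, rfl⟩⟩
  left_inv v := by
    ext x
    rfl
  right_inv w := by
    funext q
    induction q using Quotient.inductionOn' with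
    | h x => rfl

/-- The dimension of the space of `g`-invariant functions is the number of orbits of `⟨g⟩`. -/
theorem finrank_invariantFunctions [Finite X] (g : G) :
    Module.finrank K (invariantFunctions (X := X) K g) =
      Nat.card (MulAction.orbitRel.Quotient (Subgroup.zpowers g) X) := by
  classical
  have : Finite (MulAction.orbitRel.Quotient (Subgroup.zpowers g) X) := Quotient.finite _
  have : Fintype (MulAction.orbitRel.Quotient (Subgroup.zpowers g) X) := Fintype.ofFinite _
  rw [(invariantFunctionsEquiv K g).finrank_eq, Module.finrank_fintype_fun_eq_card,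
    Nat.card_eq_fintype_card]

end Fermat.Agent.Lib.Count
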