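import Mathlib

set_option autoImplicit false
set_option linter.unusedSectionVars false

namespace Fermat.Agent.Lib.Count

open MulAction

variable {X : Type*}

/-- number of cycles (fixed points included) of a permutation. -/
noncomputable def cyc (s : Equiv.Perm X) : ℕ :=
  Nat.card (MulAction.orbitRel.Quotient (Subgroup.zpowers s) X)

/-- the operator `f ↦ f ∘ s` on `X → ℚ`. -/
noncomputable def opL (s : Equiv.Perm X) : (X → ℚ) →ₗ[ℚ] (X → ℚ) :=
  LinearMap.funLeft ℚ ℚ s

@[simp] lemma opL_apply (s : Equiv.Perm X) (f : X → ℚ) (x : X) : opL s f x = f (s x) := rfl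

lemma opL_mul (a b : Equiv.Perm X) : opL (a * b) = opL b ∘ₗ opL a := by
  ext f x; simp [opL]

lemma opL_one : opL (1 : Equiv.Perm X) = LinearMap.id := by
  ext f x; simp [opL]

lemma mem_ker_iff (s : Equiv.Perm X) (f : X → ℚ) :
    f ∈ LinearMap.ker (LinearMap.id - opL s) ↔ ∀ x, f (s x) = f x := by
  rw [LinearMap.mem_ker]
  constructor
  · intro h x
    have := congrFun h x
    simp at this
    linarith
  · intro h
    ext x
    simp [h x]

lemma invariant_zpow {s : Equiv.Perm X} {f : X → ℚ} (h : ∀ x, f (s x) = f x) (k : ℤ) (x : X) :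
    f ((s ^ k) x) = f x := by
  have hinv : ∀ x, f (s⁻¹ x) = f x := fun x => by
    have := h (s⁻¹ x); simpa using this.symm
  induction k using Int.induction_on generalizing x with
  | zero => simp
  | succ n ih =>
    rw [zpow_add, zpow_one, Equiv.Perm.mul_apply, ih, h]
  | pred n ih =>
    rw [zpow_sub, zpow_one, Equiv.Perm.mul_apply, ih, hinv]

lemma comp_mk_mem_ker (s : Equiv.Perm X)
    (g : MulAction.orbitRel.Quotient (Subgroup.zpowers s) X → ℚ) :
    (fun x => g (Quotient.mk'' x)) ∈ LinearMap.ker (LinearMap.id - opL s) := by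
  rw [mem_ker_iff]
  intro x
  congr 1
  apply Quotient.sound'
  rw [MulAction.orbitRel_apply]
  exact ⟨⟨s, Subgroup.mem_zpowers s⟩, rfl⟩

/-- functions on the orbit space give invariant functions. -/
noncomputable def kerMap (s : Equiv.Perm X) :
    (MulAction.orbitRel.Quotient (Subgroup.zpowers s) X → ℚ) →ₗ[ℚ]
      LinearMap.ker (LinearMap.id - opL s) where
  toFun g := ⟨fun x => g (Quotient.mk'' x), comp_mk_mem_ker s g⟩
  map_add' _ _ := rfl
  map_smul' _ _ := rfl

lemma kerMap_bijective (s : Equiv.Perm X) : Function.Bijective (kerMap s) := by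
  constructor
  · intro g₁ g₂ h
    funext q
    induction q using Quotient.inductionOn' with
    | h x => exact congrFun (congrArg Subtype.val h) x
  · rintro ⟨f, hf⟩
    have hf' := (mem_ker_iff s f).mp hf
    refine ⟨fun q => Quotient.liftOn' q f ?_, ?_⟩
    · intro a b hab
      rw [MulAction.orbitRel_apply] at hab
      obtain ⟨⟨t, ht⟩, rfl⟩ := hab
      obtain ⟨k, rfl⟩ := Subgroup.mem_zpowers_iff.mp ht
      exact invariant_zpow hf' k b
    · rfl

lemma finrank_ker [Finite X] (s : Equiv.Perm X) :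
    Module.finrank ℚ (LinearMap.ker (LinearMap.id - opL s)) = cyc s := by
  classical
  let _ : Fintype (MulAction.orbitRel.Quotient (Subgroup.zpowers s) X) := Fintype.ofFinite _
  rw [← (LinearEquiv.ofBijective (kerMap s) (kerMap_bijective s)).finrank_eq, Module.finrank_fintype_fun_eq_card, cyc, Nat.card_eq_fintype_card]


lemma finrank_range [Finite X] (s : Equiv.Perm X) :
    Module.finrank ℚ (LinearMap.range (LinearMap.id - opL s)) + cyc s = Nat.card X := by
  classical
  let _ : Fintype X := Fintype.ofFinite _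
  have h := LinearMap.finrank_range_add_finrank_ker (LinearMap.id - opL s)
  rw [finrank_ker, Module.finrank_fintype_fun_eq_card] at h
  rw [h, Nat.card_eq_fintype_card]

section Scott

variable {V : Type*} [AddCommGroup V] [Module ℚ V] [FiniteDimensional ℚ V]

/-- the map `β` of Scott's lemma. -/
noncomputable def scottBeta (y₁ y₂ y₃ : V →ₗ[ℚ] V) :
    V →ₗ[ℚ] (LinearMap.range y₁ × LinearMap.range y₂ × LinearMap.range y₃) :=
  LinearMap.prod y₁.rangeRestrict (LinearMap.prod y₂.rangeRestrict y₃.rangeRestrict)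

/-- the map `δ` of Scott's lemma. -/
noncomputable def scottDelta (x₁ x₂ : V →ₗ[ℚ] V) (y₁ y₂ y₃ : V →ₗ[ℚ] V) :
    (LinearMap.range y₁ × LinearMap.range y₂ × LinearMap.range y₃) →ₗ[ℚ] V :=
  LinearMap.coprod (LinearMap.range y₁).subtype
    (LinearMap.coprod (x₁ ∘ₗ (LinearMap.range y₂).subtype)
      (x₁ ∘ₗ x₂ ∘ₗ (LinearMap.range y₃).subtype))

lemma scott (x₁ x₂ x₃ : V →ₗ[ℚ] V) (h : x₁ ∘ₗ x₂ ∘ₗ x₃ = LinearMap.id) :
    Module.finrank ℚ V +
      Module.finrank ℚ (LinearMap.range (scottDelta x₁ x₂ (LinearMap.id - x₁) (LinearMap.id - x₂)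
        (LinearMap.id - x₃))) ≤
    Module.finrank ℚ (LinearMap.range (LinearMap.id - x₁)) +
      Module.finrank ℚ (LinearMap.range (LinearMap.id - x₂)) +
      Module.finrank ℚ (LinearMap.range (LinearMap.id - x₃)) +
      Module.finrank ℚ (LinearMap.ker (scottBeta (LinearMap.id - x₁) (LinearMap.id - x₂)
        (LinearMap.id - x₃))) := by
  set y₁ := LinearMap.id - x₁ with hy₁
  set y₂ := LinearMap.id - x₂ with hy₂
  set y₃ := LinearMap.id - x₃ with hy₃
  have hδ := LinearMap.finrank_range_add_finrank_ker (scottDelta x₁ x₂ y₁ y₂ y₃)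
  have hβ := LinearMap.finrank_range_add_finrank_ker (scottBeta y₁ y₂ y₃)
  have hle : LinearMap.range (scottBeta y₁ y₂ y₃) ≤ LinearMap.ker (scottDelta x₁ x₂ y₁ y₂ y₃) := by
    rintro _ ⟨v, rfl⟩
    rw [LinearMap.mem_ker]
    have h3 : x₁ (x₂ (x₃ v)) = v := by
      have := congrArg (fun f => f v) h
      simpa using this
    change y₁ v + (x₁ (y₂ v) + x₁ (x₂ (y₃ v))) = 0
    simp only [hy₁, hy₂, hy₃, LinearMap.sub_apply, LinearMap.id_apply, map_sub, h3]
    abel
  have hmono := Submodule.finrank_mono hle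
  rw [Module.finrank_prod, Module.finrank_prod] at hδ
  omega

lemma mem_ker_scottBeta (y₁ y₂ y₃ : V →ₗ[ℚ] V) (v : V) :
    v ∈ LinearMap.ker (scottBeta y₁ y₂ y₃) ↔ y₁ v = 0 ∧ y₂ v = 0 ∧ y₃ v = 0 := by
  rw [LinearMap.mem_ker]
  constructor
  · intro h
    have h1 := congrArg (fun p => (p.1 : V)) h
    have h2 := congrArg (fun p => (p.2.1 : V)) h
    have h3 := congrArg (fun p => (p.2.2 : V)) h
    exact ⟨h1, h2, h3⟩
  · rintro ⟨h1, h2, h3⟩
    refine Prod.ext (Subtype.ext h1) (Prod.ext (Subtype.ext h2) (Subtype.ext h3))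

lemma range_le_scottDelta (x₁ x₂ x₃ : V →ₗ[ℚ] V) :
    LinearMap.range (LinearMap.id - x₂) ≤
      LinearMap.range (scottDelta x₁ x₂ (LinearMap.id - x₁) (LinearMap.id - x₂)
        (LinearMap.id - x₃)) ∧
    LinearMap.range (LinearMap.id - x₃) ≤
      LinearMap.range (scottDelta x₁ x₂ (LinearMap.id - x₁) (LinearMap.id - x₂)
        (LinearMap.id - x₃)) := by
  set y₁ := LinearMap.id - x₁ with hy₁
  set y₂ := LinearMap.id - x₂ with hy₂
  set y₃ := LinearMap.id - x₃ with hy₃
  set W := LinearMap.range (scottDelta x₁ x₂ y₁ y₂ y₃) with hW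
  have h1 : ∀ v, y₁ v ∈ W := fun v =>
    ⟨(⟨y₁ v, v, rfl⟩, 0, 0), by
      change y₁ v + (x₁ 0 + x₁ (x₂ 0)) = y₁ v
      simp⟩
  have h2 : ∀ v, x₁ (y₂ v) ∈ W := fun v =>
    ⟨(0, ⟨y₂ v, v, rfl⟩, 0), by
      change 0 + (x₁ (y₂ v) + x₁ (x₂ 0)) = x₁ (y₂ v)
      simp⟩
  have h3 : ∀ v, x₁ (x₂ (y₃ v)) ∈ W := fun v =>
    ⟨(0, 0, ⟨y₃ v, v, rfl⟩), by
      change 0 + (x₁ 0 + x₁ (x₂ (y₃ v))) = x₁ (x₂ (y₃ v))
      simp⟩
  constructor
  · rintro _ ⟨v, rfl⟩
    have : y₂ v = x₁ (y₂ v) + y₁ (y₂ v) := by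
      simp only [hy₁, LinearMap.sub_apply, LinearMap.id_apply]; abel
    rw [this]
    exact W.add_mem (h2 v) (h1 _)
  · rintro _ ⟨v, rfl⟩
    have : y₃ v = x₁ (x₂ (y₃ v)) + (y₁ (y₃ v) + x₁ (y₂ (y₃ v))) := by
      simp only [hy₁, hy₂, LinearMap.sub_apply, LinearMap.id_apply, map_sub]; abel
    rw [this]
    exact W.add_mem (h3 v) (W.add_mem (h1 _) (h2 _))

end Scott

section Ree

variable [Finite X]

lemma invariant_closure {a b : Equiv.Perm X} {f : X → ℚ} (ha : ∀ x, f (a x) = f x)
    (hb : ∀ x, f (b x) = f x) {g : Equiv.Perm X}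
    (hg : g ∈ Subgroup.closure ({a, b} : Set (Equiv.Perm X))) : ∀ x, f (g x) = f x := by
  induction hg using Subgroup.closure_induction with
  | mem s hs =>
    rcases hs with rfl | rfl
    · exact ha
    · exact hb
  | one => intro x; rfl
  | mul s t _ _ hs ht => intro x; rw [Equiv.Perm.mul_apply, hs, ht]
  | inv s _ hs => intro x; have := hs (s⁻¹ x); simpa using this.symm

lemma single_sub_mem_range [DecidableEq X] (s : Equiv.Perm X) (x : X) :
    (Pi.single x (1 : ℚ) - Pi.single (s x) (1 : ℚ) : X → ℚ) ∈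
      LinearMap.range (LinearMap.id - opL s) := by
  refine ⟨-Pi.single (s x) (1 : ℚ), ?_⟩
  ext z
  simp only [LinearMap.sub_apply, LinearMap.id_apply, Pi.sub_apply, Pi.neg_apply, opL_apply,
    Pi.single_apply, s.injective.eq_iff]
  ring

lemma single_sub_mem_closure [DecidableEq X] {a b : Equiv.Perm X} {W : Submodule ℚ (X → ℚ)}
    (ha : LinearMap.range (LinearMap.id - opL a) ≤ W)
    (hb : LinearMap.range (LinearMap.id - opL b) ≤ W) {g : Equiv.Perm X}
    (hg : g ∈ Subgroup.closure ({a, b} : Set (Equiv.Perm X))) :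
    ∀ x, (Pi.single x (1 : ℚ) - Pi.single (g x) (1 : ℚ) : X → ℚ) ∈ W := by
  induction hg using Subgroup.closure_induction with
  | mem s hs =>
    rcases hs with rfl | rfl
    · exact fun x => ha (single_sub_mem_range _ x)
    · exact fun x => hb (single_sub_mem_range _ x)
  | one => intro x; simp
  | mul s t _ _ hs ht =>
    intro x
    have := W.add_mem (ht x) (hs (t x))
    simpa using this
  | inv s _ hs =>
    intro x
    have := W.neg_mem (hs (s⁻¹ x))
    simpa using this

lemma card_le_finrank_add_one {a b : Equiv.Perm X} {W : Submodule ℚ (X → ℚ)}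
    (htrans : ∀ x y : X, ∃ g ∈ Subgroup.closure ({a, b} : Set (Equiv.Perm X)), g x = y)
    (ha : LinearMap.range (LinearMap.id - opL a) ≤ W)
    (hb : LinearMap.range (LinearMap.id - opL b) ≤ W) :
    Nat.card X ≤ Module.finrank ℚ W + 1 := by
  classical
  let _ : Fintype X := Fintype.ofFinite _
  rcases isEmpty_or_nonempty X with hX | ⟨⟨x₀⟩⟩
  · simp
  have htop : W ⊔ Submodule.span ℚ {(Pi.single x₀ (1 : ℚ) : X → ℚ)} = ⊤ := by
    rw [eq_top_iff]
    intro f _
    have hx : ∀ x, (Pi.single x (1 : ℚ) : X → ℚ) ∈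
        W ⊔ Submodule.span ℚ {(Pi.single x₀ (1 : ℚ) : X → ℚ)} := by
      intro x
      obtain ⟨g, hg, rfl⟩ := htrans x₀ x
      have h1 := single_sub_mem_closure ha hb hg x₀
      have h2 : (Pi.single x₀ (1 : ℚ) : X → ℚ) ∈
          Submodule.span ℚ {(Pi.single x₀ (1 : ℚ) : X → ℚ)} := Submodule.mem_span_singleton_self _
      have := Submodule.sub_mem _ (Submodule.mem_sup_right (S := W) h2)
        (Submodule.mem_sup_left (T := Submodule.span ℚ {(Pi.single x₀ (1 : ℚ) : X → ℚ)}) h1)
      simpa using this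
    have hf : f = ∑ x, f x • (Pi.single x (1 : ℚ) : X → ℚ) := by
      ext z
      simp [Finset.sum_apply, Pi.single_apply]
    rw [hf]
    exact Submodule.sum_mem _ fun x _ => Submodule.smul_mem _ _ (hx x)
  have h1 := Submodule.finrank_add_le_finrank_add_finrank W
    (Submodule.span ℚ {(Pi.single x₀ (1 : ℚ) : X → ℚ)})
  rw [htop, finrank_top, Module.finrank_fintype_fun_eq_card] at h1
  have h2 : Module.finrank ℚ (Submodule.span ℚ {(Pi.single x₀ (1 : ℚ) : X → ℚ)}) ≤ 1 := by
    have := finrank_span_le_card (R := ℚ) ({(Pi.single x₀ (1 : ℚ) : X → ℚ)} : Set (X → ℚ))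
    simpa using this
  rw [Nat.card_eq_fintype_card]
  omega

lemma finrank_invariants_le_one {a b : Equiv.Perm X} {K : Submodule ℚ (X → ℚ)}
    (htrans : ∀ x y : X, ∃ g ∈ Subgroup.closure ({a, b} : Set (Equiv.Perm X)), g x = y)
    (hK : ∀ f ∈ K, (∀ x, f (a x) = f x) ∧ (∀ x, f (b x) = f x)) :
    Module.finrank ℚ K ≤ 1 := by
  classical
  have hle : K ≤ Submodule.span ℚ {(fun _ => (1 : ℚ) : X → ℚ)} := by
    intro f hf
    obtain ⟨h1, h2⟩ := hK f hf
    rcases isEmpty_or_nonempty X with hX | ⟨⟨x₀⟩⟩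
    · have : f = 0 := Subsingleton.elim _ _
      rw [this]; exact Submodule.zero_mem _
    rw [Submodule.mem_span_singleton]
    refine ⟨f x₀, ?_⟩
    ext x
    obtain ⟨g, hg, rfl⟩ := htrans x₀ x
    simp [invariant_closure h1 h2 hg x₀]
  have h2 : Module.finrank ℚ (Submodule.span ℚ {(fun _ => (1 : ℚ) : X → ℚ)}) ≤ 1 := by
    have := finrank_span_le_card (R := ℚ) ({(fun _ => (1 : ℚ) : X → ℚ)} : Set (X → ℚ))
    simpa using this
  exact (Submodule.finrank_mono hle).trans h2

lemma cyc_inv (s : Equiv.Perm X) : cyc s⁻¹ = cyc s := by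
  unfold cyc
  rw [Subgroup.zpowers_inv]

/-- Ree's inequality for two generators. -/
theorem ree_le {a b : Equiv.Perm X}
    (htrans : ∀ x y : X, ∃ g ∈ Subgroup.closure ({a, b} : Set (Equiv.Perm X)), g x = y) :
    cyc a + cyc b + cyc (a * b) ≤ Nat.card X + 2 := by
  classical
  let _ : Fintype X := Fintype.ofFinite _
  set c := (a * b)⁻¹ with hc
  have hprod : opL c ∘ₗ opL b ∘ₗ opL a = LinearMap.id := by
    rw [← opL_mul, ← opL_mul, hc, mul_inv_cancel, opL_one]
  have hs := scott (opL c) (opL b) (opL a) hprod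
  obtain ⟨hWb, hWa⟩ := range_le_scottDelta (opL c) (opL b) (opL a)
  have h1 := card_le_finrank_add_one htrans hWa hWb
  have h2 : Module.finrank ℚ (LinearMap.ker (scottBeta (LinearMap.id - opL c)
      (LinearMap.id - opL b) (LinearMap.id - opL a))) ≤ 1 := by
    apply finrank_invariants_le_one htrans
    intro f hf
    rw [mem_ker_scottBeta] at hf
    exact ⟨(mem_ker_iff a f).mp (LinearMap.mem_ker.mpr hf.2.2),
      (mem_ker_iff b f).mp (LinearMap.mem_ker.mpr hf.2.1)⟩
  have ra := finrank_range a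
  have rb := finrank_range b
  have rc := finrank_range c
  rw [hc, cyc_inv, ← hc] at rc
  rw [Module.finrank_fintype_fun_eq_card, ← Nat.card_eq_fintype_card] at hs
  omega

end Ree

section Parity

variable [Fintype X] [DecidableEq X]

lemma orbitRel_iff_sameCycle (s : Equiv.Perm X) (x y : X) :
    (MulAction.orbitRel (Subgroup.zpowers s) X) x y ↔ s.SameCycle y x := by
  rw [MulAction.orbitRel_apply]
  constructor
  · rintro ⟨⟨t, ht⟩, rfl⟩
    obtain ⟨k, rfl⟩ := Subgroup.mem_zpowers_iff.mp ht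
    exact ⟨k, rfl⟩
  · rintro ⟨k, rfl⟩
    exact ⟨⟨s ^ k, Subgroup.mem_zpowers_iff.mpr ⟨k, rfl⟩⟩, rfl⟩

lemma exists_mem_support_of_mem_cycleFactorsFinset {s c : Equiv.Perm X}
    (hc : c ∈ s.cycleFactorsFinset) : ∃ x, x ∈ c.support := by
  obtain ⟨x, hx, _⟩ := (Equiv.Perm.mem_cycleFactorsFinset_iff.mp hc).1
  exact ⟨x, Equiv.Perm.mem_support.mpr hx⟩

/-- cycles and fixed points enumerate the orbits. -/
noncomputable def orbitMap (s : Equiv.Perm X) :
    (s.cycleFactorsFinset ⊕ Function.fixedPoints s) →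
      MulAction.orbitRel.Quotient (Subgroup.zpowers s) X
  | Sum.inl c => Quotient.mk'' (exists_mem_support_of_mem_cycleFactorsFinset c.2).choose
  | Sum.inr x => Quotient.mk'' x.1

lemma orbitMap_bijective (s : Equiv.Perm X) : Function.Bijective (orbitMap s) := by
  constructor
  · rintro (⟨c, hc⟩ | ⟨x, hx⟩) (⟨c', hc'⟩ | ⟨y, hy⟩) h
    · have h1 := (exists_mem_support_of_mem_cycleFactorsFinset hc).choose_spec
      have h2 := (exists_mem_support_of_mem_cycleFactorsFinset hc').choose_spec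
      have h3 : s.SameCycle _ _ := (orbitRel_iff_sameCycle s _ _).mp (Quotient.exact' h)
      have e1 := Equiv.Perm.cycle_is_cycleOf h1 hc
      have e2 := Equiv.Perm.cycle_is_cycleOf h2 hc'
      have : c = c' := by rw [e1, e2, h3.cycleOf_eq]
      subst this
      rfl
    · exfalso
      have h1 := (exists_mem_support_of_mem_cycleFactorsFinset hc).choose_spec
      have h3 : s.SameCycle _ _ := (orbitRel_iff_sameCycle s _ _).mp (Quotient.exact' h)
      have h4 := Equiv.Perm.mem_cycleFactorsFinset_support_le hc h1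
      exact (Equiv.Perm.mem_support.mp h4) (h3.apply_eq_self_iff.mp hy)
    · exfalso
      have h1 := (exists_mem_support_of_mem_cycleFactorsFinset hc').choose_spec
      have h3 : s.SameCycle _ _ := (orbitRel_iff_sameCycle s _ _).mp (Quotient.exact' h)
      have h4 := Equiv.Perm.mem_cycleFactorsFinset_support_le hc' h1
      exact (Equiv.Perm.mem_support.mp h4) (h3.apply_eq_self_iff.mpr hx)
    · have h3 : s.SameCycle y x := (orbitRel_iff_sameCycle s _ _).mp (Quotient.exact' h)
      have : y = x := h3.eq_of_left hy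
      subst this
      rfl
  · intro q
    induction q using Quotient.inductionOn' with
    | h x =>
      by_cases hx : s x = x
      · exact ⟨Sum.inr ⟨x, hx⟩, rfl⟩
      · have hc : s.cycleOf x ∈ s.cycleFactorsFinset :=
          Equiv.Perm.cycleOf_mem_cycleFactorsFinset_iff.mpr (Equiv.Perm.mem_support.mpr hx)
        refine ⟨Sum.inl ⟨s.cycleOf x, hc⟩, ?_⟩
        have h1 := (exists_mem_support_of_mem_cycleFactorsFinset hc).choose_spec
        apply Quotient.sound'
        rw [orbitRel_iff_sameCycle]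
        exact (Equiv.Perm.mem_support_cycleOf_iff.mp h1).1

lemma cyc_eq (s : Equiv.Perm X) :
    cyc s = Multiset.card s.cycleType + (Fintype.card X - s.cycleType.sum) := by
  rw [cyc, ← Nat.card_congr (Equiv.ofBijective _ (orbitMap_bijective s)), Nat.card_sum,
    Nat.card_eq_fintype_card, Nat.card_eq_fintype_card, Equiv.Perm.card_fixedPoints,
    Fintype.card_coe, Equiv.Perm.cycleType_def, Multiset.card_map]
  rfl

lemma cyc_le_card (s : Equiv.Perm X) : cyc s ≤ Fintype.card X := by
  rw [cyc_eq]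
  have h1 : Multiset.card s.cycleType ≤ s.cycleType.sum := by
    have := Multiset.card_nsmul_le_sum (s := s.cycleType) (a := 1)
      (fun n hn => (Equiv.Perm.one_lt_of_mem_cycleType hn).le)
    simpa using this
  have h2 := s.sum_cycleType_le
  omega

lemma sign_eq (s : Equiv.Perm X) :
    Equiv.Perm.sign s = (-1 : ℤˣ) ^ (Fintype.card X + cyc s) := by
  rw [Equiv.Perm.sign_of_cycleType, cyc_eq]
  have h2 := s.sum_cycleType_le
  obtain ⟨k, hk⟩ := Nat.exists_eq_add_of_le h2
  rw [hk]
  have : s.cycleType.sum + k + (Multiset.card s.cycleType + (s.cycleType.sum + k - s.cycleType.sum))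
      = (s.cycleType.sum + Multiset.card s.cycleType) + 2 * k := by omega
  rw [this, pow_add _ _ (2 * k), pow_mul]
  simp

lemma even_card_add_cyc (a b : Equiv.Perm X) :
    Even (Fintype.card X + cyc a + cyc b + cyc (a * b)) := by
  have h := Equiv.Perm.sign_mul a b
  rw [sign_eq, sign_eq, sign_eq, ← pow_add] at h
  have h' : ((-1 : ℤˣ) ^ (Fintype.card X + cyc (a * b))) *
      ((-1 : ℤˣ) ^ (Fintype.card X + cyc a + (Fintype.card X + cyc b))) = 1 := by
    rw [← h, ← pow_add, ← two_mul, pow_mul]; simp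
  rw [← pow_add] at h'
  have hne : ((-1 : ℤˣ)) ≠ 1 := by decide
  have hev : Even (Fintype.card X + cyc (a * b) + (Fintype.card X + cyc a + (Fintype.card X + cyc b))) := by
    by_contra hodd
    rw [Nat.not_even_iff_odd] at hodd
    rw [hodd.neg_one_pow] at h'
    exact hne h'
  obtain ⟨k, hk⟩ := hev
  exact ⟨k - Fintype.card X, by omega⟩

lemma cycleType_eq_replicate_of_pow_prime {p : ℕ} (hp : p.Prime) {s : Equiv.Perm X}
    (h : s ^ p = 1) : s.cycleType = Multiset.replicate (Multiset.card s.cycleType) p := by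
  rw [Multiset.eq_replicate]
  refine ⟨rfl, fun n hn => ?_⟩
  have h1 : n ∣ p := (Equiv.Perm.dvd_of_mem_cycleType hn).trans (orderOf_dvd_of_pow_eq_one h)
  have h2 := Equiv.Perm.one_lt_of_mem_cycleType hn
  rcases (Nat.dvd_prime hp).mp h1 with rfl | rfl
  · omega
  · rfl

lemma mul_cyc_of_pow_prime' {p : ℕ} (hp : p.Prime) {s : Equiv.Perm X} (h : s ^ p = 1) :
    p * cyc s = Fintype.card X + (p - 1) * Fintype.card (Function.fixedPoints s) := by
  have h1 := cycleType_eq_replicate_of_pow_prime hp h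
  have h2 : s.cycleType.sum = Multiset.card s.cycleType * p := by
    conv_lhs => rw [h1]
    simp
  have h3 := s.sum_cycleType_le
  rw [cyc_eq, Equiv.Perm.card_fixedPoints]
  obtain ⟨k, hk⟩ := Nat.exists_eq_add_of_le h3
  obtain ⟨q, rfl⟩ : ∃ q, p = q + 1 := ⟨p - 1, by have := hp.pos; omega⟩
  rw [hk, h2]
  simp only [Nat.add_sub_cancel_left, Nat.add_sub_cancel]
  ring

end Parity

lemma mul_cyc_of_pow_prime [Finite X] {p : ℕ} (hp : p.Prime) {s : Equiv.Perm X} (h : s ^ p = 1) :
    p * cyc s = Nat.card X + (p - 1) * Nat.card {x : X // s x = x} := by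
  classical
  let _ : Fintype X := Fintype.ofFinite _
  have := mul_cyc_of_pow_prime' hp h
  rw [← Nat.card_eq_fintype_card, ← Nat.card_eq_fintype_card] at this
  exact this

lemma two_mul_cyc [Finite X] {s : Equiv.Perm X} (h : s ^ 2 = 1) :
    2 * cyc s = Nat.card X + Nat.card {x : X // s x = x} := by
  have := mul_cyc_of_pow_prime Nat.prime_two h
  simpa using this

lemma three_mul_cyc [Finite X] {s : Equiv.Perm X} (h : s ^ 3 = 1) :
    3 * cyc s = Nat.card X + 2 * Nat.card {x : X // s x = x} := by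
  have := mul_cyc_of_pow_prime Nat.prime_three h
  simpa using this

/-- **Genus of a constellation**: for two permutations generating a transitive group,
`#X + 2 - cyc a - cyc b - cyc (a*b)` is a nonnegative even number. -/
theorem exists_genus [Finite X] {a b : Equiv.Perm X}
    (htrans : ∀ x y : X, ∃ g ∈ Subgroup.closure ({a, b} : Set (Equiv.Perm X)), g x = y) :
    ∃ g : ℕ, 2 * g + cyc a + cyc b + cyc (a * b) = Nat.card X + 2 := by
  classical
  let _ : Fintype X := Fintype.ofFinite _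
  have h1 := ree_le htrans
  obtain ⟨k, hk⟩ := even_card_add_cyc a b
  rw [Nat.card_eq_fintype_card] at h1 ⊢
  exact ⟨Fintype.card X + 1 - k, by omega⟩

/-- The Hurwitz-type genus formula for a transitive pair `(a, b)` with `a ^ 2 = 1`, `b ^ 3 = 1`:
`12 g + 3 #Fix a + 4 #Fix b + 6 cyc (a b) = #X + 12`. -/
theorem exists_genus_two_three [Finite X] {a b : Equiv.Perm X} (ha : a ^ 2 = 1) (hb : b ^ 3 = 1)
    (htrans : ∀ x y : X, ∃ g ∈ Subgroup.closure ({a, b} : Set (Equiv.Perm X)), g x = y) :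
    ∃ g : ℕ, 12 * g + 3 * Nat.card {x : X // a x = x} + 4 * Nat.card {x : X // b x = x}
      + 6 * cyc (a * b) = Nat.card X + 12 := by
  obtain ⟨g, hg⟩ := exists_genus htrans
  have h2 := two_mul_cyc ha
  have h3 := three_mul_cyc hb
  exact ⟨g, by omega⟩

end Fermat.Agent.Lib.Count
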