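import Fermat.Agent.Lib.Count.Action
import Fermat.Agent.Lib.Count.Ree
import Fermat.Agent.Lib.Count.Invariants

set_option autoImplicit false

open scoped MatrixGroups
open CongruenceSubgroup Matrix MulAction ModularCurve

namespace Fermat.Agent.Lib.Count

variable (N : ℕ) [NeZero N]

/-- (1) the number of cosets. -/
theorem card_quotient_Gamma0 : Nat.card (SL(2, ℤ) ⧸ Gamma0 N) = dedekindPsi N :=
  Gamma0Count.card_coset_eq N

/-- (2) the number of `T`-orbits. -/
theorem card_orbits_zpowers_T :
    Nat.card (orbitRel.Quotient (Subgroup.zpowers ModularGroup.T) (SL(2, ℤ) ⧸ Gamma0 N)) =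
      cuspCount N :=
  Gamma0Count.card_orbits_T N

theorem cyc_permT : cyc (permT N) = cuspCount N := card_orbits_permT N

theorem two_mul_cyc_permS : 2 * cyc (permS N) = dedekindPsi N + nuTwo N := by
  rw [two_mul_cyc (permS_sq N), card_coset, ← card_fixedBy_permS N]
  rfl

theorem three_mul_cyc_permST :
    3 * cyc (permS N * permT N) = dedekindPsi N + 2 * nuThree N := by
  rw [three_mul_cyc (permST_cube N), card_coset, ← card_fixedBy_permST N]
  rfl

/-- (3) the number of `S`-orbits. -/
theorem two_mul_card_orbits_S :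
    2 * Nat.card (orbitRel.Quotient (Subgroup.zpowers ModularGroup.S) (SL(2, ℤ) ⧸ Gamma0 N)) =
      dedekindPsi N + nuTwo N := by
  rw [← two_mul_cyc_permS N, cyc, permS, card_orbits_toPerm]
  rfl

/-- (4) the number of `S * T`-orbits. -/
theorem three_mul_card_orbits_ST :
    3 * Nat.card (orbitRel.Quotient (Subgroup.zpowers (ModularGroup.S * ModularGroup.T))
      (SL(2, ℤ) ⧸ Gamma0 N)) = dedekindPsi N + 2 * nuThree N := by
  rw [← three_mul_cyc_permST N, cyc, permS_mul_permT]
  have := card_orbits_toPerm (X := SL(2, ℤ) ⧸ Gamma0 N) (ModularGroup.S * ModularGroup.T)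
  exact congrArg (3 * ·) this.symm

/-- The integral form of the genus formula. -/
theorem exists_genus_Gamma0 :
    ∃ g : ℕ, 12 * g + 3 * nuTwo N + 4 * nuThree N + 6 * cuspCount N = dedekindPsi N + 12 := by
  obtain ⟨g, hg⟩ := exists_genus (a := permS N) (b := permT N) (exists_mem_closure_apply_eq N)
  have h2 := two_mul_cyc_permS N
  have h3 := three_mul_cyc_permST N
  rw [cyc_permT, card_coset] at hg
  exact ⟨g, by omega⟩

/-- (5) `genusFormula N` is a natural number. -/
theorem exists_nat_eq_genusFormula : ∃ g : ℕ, (g : ℚ) = genusFormula N := by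
  obtain ⟨g, hg⟩ := exists_genus_Gamma0 N
  refine ⟨g, ?_⟩
  have h : (12 * g + 3 * nuTwo N + 4 * nuThree N + 6 * cuspCount N : ℚ) = dedekindPsi N + 12 := by
    exact_mod_cast hg
  rw [genusFormula]
  linarith

/-- dimension of the space of `T`-invariant functions on the coset space -/
theorem finrank_invariantFunctions_T (K : Type*) [Field K] :
    Module.finrank K (invariantFunctions (X := SL(2, ℤ) ⧸ Gamma0 N) K ModularGroup.T) =
      cuspCount N := by
  rw [finrank_invariantFunctions]
  exact card_orbits_zpowers_T N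

theorem two_mul_finrank_invariantFunctions_S (K : Type*) [Field K] :
    2 * Module.finrank K (invariantFunctions (X := SL(2, ℤ) ⧸ Gamma0 N) K ModularGroup.S) =
      dedekindPsi N + nuTwo N := by
  rw [finrank_invariantFunctions]
  exact two_mul_card_orbits_S N

theorem three_mul_finrank_invariantFunctions_ST (K : Type*) [Field K] :
    3 * Module.finrank K (invariantFunctions (X := SL(2, ℤ) ⧸ Gamma0 N) K
      (ModularGroup.S * ModularGroup.T)) = dedekindPsi N + 2 * nuThree N := by
  rw [finrank_invariantFunctions]
  exact three_mul_card_orbits_ST N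

end Fermat.Agent.Lib.Count
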