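import Mathlib
import Fermat.Agent.Lib.Gamma0Count

/-!
# The permutation representation of `S`, `T` on `SL(2,ℤ) ⧸ Γ₀(N)`

Everything an abstract "genus of a constellation" lemma needs: the permutations `permS`, `permT`
of the finite set `SL(2,ℤ) ⧸ Γ₀(N)` generate a transitive group, `permS ^ 2 = 1`,
`(permS * permT) ^ 3 = 1`, and the counts of points, fixed points and cycles.
-/

namespace Fermat.Agent.Lib.Count

open CongruenceSubgroup Matrix MatrixGroups ModularGroup

variable (N : ℕ)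

/-- The permutation of `SL(2,ℤ) ⧸ Γ₀(N)` induced by `S`. -/
noncomputable def permS : Equiv.Perm (SL(2, ℤ) ⧸ Gamma0 N) := MulAction.toPerm S

/-- The permutation of `SL(2,ℤ) ⧸ Γ₀(N)` induced by `T`. -/
noncomputable def permT : Equiv.Perm (SL(2, ℤ) ⧸ Gamma0 N) := MulAction.toPerm T

theorem permS_eq : permS N = MulAction.toPermHom SL(2, ℤ) (SL(2, ℤ) ⧸ Gamma0 N) S := rfl

theorem permT_eq : permT N = MulAction.toPermHom SL(2, ℤ) (SL(2, ℤ) ⧸ Gamma0 N) T := rfl

theorem permS_mul_permT :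
    permS N * permT N = MulAction.toPermHom SL(2, ℤ) (SL(2, ℤ) ⧸ Gamma0 N) (S * T) := by
  rw [map_mul]; rfl

@[simp] theorem permS_apply (x : SL(2, ℤ) ⧸ Gamma0 N) : permS N x = S • x := rfl

@[simp] theorem permT_apply (x : SL(2, ℤ) ⧸ Gamma0 N) : permT N x = T • x := rfl

theorem permST_apply (x : SL(2, ℤ) ⧸ Gamma0 N) : (permS N * permT N) x = (S * T) • x := by
  rw [permS_mul_permT]; rfl

/-- `-1` acts trivially on `SL(2,ℤ) ⧸ Γ₀(N)`. -/
theorem neg_one_smul_coset (x : SL(2, ℤ) ⧸ Gamma0 N) : (-1 : SL(2, ℤ)) • x = x := by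
  induction x using QuotientGroup.induction_on with
  | H g =>
    rw [MulAction.Quotient.smul_coe, smul_eq_mul, QuotientGroup.eq, Gamma0_mem]
    have : (-1 * g)⁻¹ * g = -1 := by
      rw [neg_mul, one_mul]
      have h : (-g) * (-1) = g := by simp
      rw [inv_mul_eq_iff_eq_mul, h]
    rw [this]
    simp

theorem S_sq : (S : SL(2, ℤ)) ^ 2 = -1 := by
  decide +kernel

theorem ST_cube : ((S : SL(2, ℤ)) * T) ^ 3 = -1 := by
  decide +kernel

theorem permS_sq : permS N ^ 2 = 1 := by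
  rw [permS_eq, ← map_pow, S_sq]
  ext x
  exact neg_one_smul_coset N x

theorem permST_cube : (permS N * permT N) ^ 3 = 1 := by
  rw [permS_mul_permT, ← map_pow, ST_cube]
  ext x
  exact neg_one_smul_coset N x

/-- The group generated by `permS`, `permT` is the image of `SL(2,ℤ)`. -/
theorem closure_permS_permT :
    Subgroup.closure {permS N, permT N}
      = (MulAction.toPermHom SL(2, ℤ) (SL(2, ℤ) ⧸ Gamma0 N)).range := by
  rw [MonoidHom.range_eq_map, ← SpecialLinearGroup.SL2Z_generators, MonoidHom.map_closure,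
    Set.image_pair]
  rfl

/-- Transitivity in elementary form. -/
theorem exists_mem_closure_apply_eq (x y : SL(2, ℤ) ⧸ Gamma0 N) :
    ∃ σ ∈ Subgroup.closure {permS N, permT N}, σ x = y := by
  obtain ⟨g, hg⟩ := MulAction.exists_smul_eq SL(2, ℤ) x y
  refine ⟨MulAction.toPermHom SL(2, ℤ) (SL(2, ℤ) ⧸ Gamma0 N) g, ?_, hg⟩
  rw [closure_permS_permT]
  exact ⟨g, rfl⟩

instance isPretransitive_closure :
    MulAction.IsPretransitive (Subgroup.closure {permS N, permT N}) (SL(2, ℤ) ⧸ Gamma0 N) :=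
  ⟨fun x y => by
    obtain ⟨σ, hσ, h⟩ := exists_mem_closure_apply_eq N x y
    exact ⟨⟨σ, hσ⟩, h⟩⟩

instance finite_coset [NeZero N] : Finite (SL(2, ℤ) ⧸ Gamma0 N) := inferInstance

theorem card_coset [NeZero N] : Nat.card (SL(2, ℤ) ⧸ Gamma0 N) = ModularCurve.dedekindPsi N :=
  Gamma0Count.card_coset_eq N

theorem fixedBy_permS :
    MulAction.fixedBy (SL(2, ℤ) ⧸ Gamma0 N) (permS N)
      = MulAction.fixedBy (SL(2, ℤ) ⧸ Gamma0 N) S := rfl

theorem fixedBy_permST :
    MulAction.fixedBy (SL(2, ℤ) ⧸ Gamma0 N) (permS N * permT N)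
      = MulAction.fixedBy (SL(2, ℤ) ⧸ Gamma0 N) (S * T) := by
  ext x
  rw [MulAction.mem_fixedBy, MulAction.mem_fixedBy, Equiv.Perm.smul_def, permST_apply]

theorem card_fixedBy_permS [NeZero N] :
    Nat.card (MulAction.fixedBy (SL(2, ℤ) ⧸ Gamma0 N) (permS N)) = ModularCurve.nuTwo N := by
  rw [fixedBy_permS, Gamma0Count.card_fixedBy_S]

theorem card_fixedBy_permST [NeZero N] :
    Nat.card (MulAction.fixedBy (SL(2, ℤ) ⧸ Gamma0 N) (permS N * permT N))
      = ModularCurve.nuThree N := by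
  rw [fixedBy_permST, Gamma0Count.card_fixedBy_ST]

/-- General transport: the orbits of `zpowers g` and of `zpowers (toPerm g)` coincide. -/
theorem orbitRel_zpowers_toPerm {G X : Type*} [Group G] [MulAction G X] (g : G) :
    MulAction.orbitRel (Subgroup.zpowers (MulAction.toPerm g : Equiv.Perm X)) X
      = MulAction.orbitRel (Subgroup.zpowers g) X := by
  ext x y
  rw [MulAction.orbitRel_apply, MulAction.orbitRel_apply, MulAction.mem_orbit_iff,
    MulAction.mem_orbit_iff]
  constructor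
  · rintro ⟨⟨σ, k, rfl⟩, h⟩
    refine ⟨⟨g ^ k, k, rfl⟩, ?_⟩
    rw [← h]
    change g ^ k • y = ((MulAction.toPermHom G X g) ^ k) y
    rw [← map_zpow]
    rfl
  · rintro ⟨⟨σ, k, rfl⟩, h⟩
    refine ⟨⟨(MulAction.toPerm g) ^ k, k, rfl⟩, ?_⟩
    rw [← h]
    change ((MulAction.toPermHom G X g) ^ k) y = g ^ k • y
    rw [← map_zpow]
    rfl

theorem card_orbits_toPerm {G X : Type*} [Group G] [MulAction G X] (g : G) :
    Nat.card (MulAction.orbitRel.Quotient (Subgroup.zpowers (MulAction.toPerm g : Equiv.Perm X)) X)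
      = Nat.card (MulAction.orbitRel.Quotient (Subgroup.zpowers g) X) := by
  unfold MulAction.orbitRel.Quotient
  rw [orbitRel_zpowers_toPerm]

theorem card_orbits_permT [NeZero N] :
    Nat.card (MulAction.orbitRel.Quotient (Subgroup.zpowers (permT N)) (SL(2, ℤ) ⧸ Gamma0 N))
      = ModularCurve.cuspCount N := by
  rw [permT, card_orbits_toPerm]
  exact Gamma0Count.card_orbits_T N

end Fermat.Agent.Lib.Count
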