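import Mathlib
import Fermat.Prelude.Def_ModularCurve_GenusNumerics

set_option autoImplicit false

namespace Fermat.Agent.Lib.Count

open Matrix MatrixGroups CongruenceSubgroup ModularGroup

/-- the modulus `gcd (d, N/d)` -/
def eMod (N d : ℕ) : ℕ := Nat.gcd d (N / d)

theorem core_iff {a a' c₁ c₁' : ℤ} {d N₁ : ℕ} (hd : d ≠ 0)
    (h1 : IsCoprime c₁ (N₁ : ℤ)) (h1' : IsCoprime c₁' (N₁ : ℤ)) :
    (∃ k : ℤ, ((d * N₁ : ℕ) : ℤ) ∣ (a + k * (d * c₁)) * (d * c₁') - a' * (d * c₁)) ↔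
      ((Nat.gcd d N₁ : ℕ) : ℤ) ∣ a * c₁' - a' * c₁ := by
  have hd' : (d : ℤ) ≠ 0 := by exact_mod_cast hd
  have key : ∀ k : ℤ, (((d * N₁ : ℕ) : ℤ) ∣ (a + k * (d * c₁)) * (d * c₁') - a' * (d * c₁)) ↔
      ((N₁ : ℤ) ∣ (a * c₁' - a' * c₁) + k * (d * (c₁ * c₁'))) := by
    intro k
    have : (a + k * (d * c₁)) * (d * c₁') - a' * (d * c₁) =
        (d : ℤ) * ((a * c₁' - a' * c₁) + k * (d * (c₁ * c₁'))) := by ring
    rw [this]
    push_cast
    exact mul_dvd_mul_iff_left hd'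
  simp only [key]
  have he1 : ((Nat.gcd d N₁ : ℕ) : ℤ) ∣ (d : ℤ) := Int.natCast_dvd_natCast.mpr (Nat.gcd_dvd_left _ _)
  have he2 : ((Nat.gcd d N₁ : ℕ) : ℤ) ∣ (N₁ : ℤ) := Int.natCast_dvd_natCast.mpr (Nat.gcd_dvd_right _ _)
  constructor
  · rintro ⟨k, hk⟩
    have h2 := he2.trans hk
    have h3 : ((Nat.gcd d N₁ : ℕ) : ℤ) ∣ k * (d * (c₁ * c₁')) :=
      Dvd.dvd.mul_left (Dvd.dvd.mul_right he1 _) _
    exact (dvd_add_left h3).mp h2
  · rintro ⟨m, hm⟩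
    obtain ⟨w, z, hw⟩ := (h1.mul_left h1')
    have hb : ((Nat.gcd d N₁ : ℕ) : ℤ) = d * Nat.gcdA d N₁ + N₁ * Nat.gcdB d N₁ :=
      Nat.gcd_eq_gcd_ab d N₁
    refine ⟨-(m * Nat.gcdA d N₁ * w), ?_⟩
    rw [hm, hb]
    refine ⟨m * Nat.gcdB d N₁ + m * Nat.gcdA d N₁ * d * z, ?_⟩
    have hw' : w * (c₁ * c₁') = 1 - z * N₁ := by linarith
    calc (d * Nat.gcdA d N₁ + N₁ * Nat.gcdB d N₁) * m + -(m * Nat.gcdA d N₁ * w) * (d * (c₁ * c₁'))
        = (d * Nat.gcdA d N₁ + N₁ * Nat.gcdB d N₁) * m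
            - (m * Nat.gcdA d N₁ * d) * (w * (c₁ * c₁')) := by ring
      _ = (d * Nat.gcdA d N₁ + N₁ * Nat.gcdB d N₁) * m
            - (m * Nat.gcdA d N₁ * d) * (1 - z * N₁) := by rw [hw']
      _ = _ := by ring

theorem gcd_eq_of_rel {a c a' c' : ℤ} {N : ℕ} (h : IsCoprime a c)
    (h' : IsCoprime a' c') {k : ℤ} (hk : (N : ℤ) ∣ (a + k * c) * c' - a' * c) :
    Int.gcd c N = Int.gcd c' N := by
  have hd1 : ((Int.gcd c N : ℕ) : ℤ) ∣ c := Int.gcd_dvd_left ..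
  have hd2 : ((Int.gcd c N : ℕ) : ℤ) ∣ (N : ℤ) := Int.gcd_dvd_right ..
  have hd1' : ((Int.gcd c' N : ℕ) : ℤ) ∣ c' := Int.gcd_dvd_left ..
  have hd2' : ((Int.gcd c' N : ℕ) : ℤ) ∣ (N : ℤ) := Int.gcd_dvd_right ..
  apply Nat.dvd_antisymm
  · have h1 : ((Int.gcd c N : ℕ) : ℤ) ∣ (a + k * c) * c' := by
      have := (hd2.trans hk)
      have h2 : ((Int.gcd c N : ℕ) : ℤ) ∣ a' * c := Dvd.dvd.mul_left hd1 a'
      have := dvd_add this h2
      simpa using this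
    have hcop : IsCoprime ((Int.gcd c N : ℕ) : ℤ) (a + k * c) := by
      have : IsCoprime (a + k * c) c := by
        simpa [mul_comm] using (IsCoprime.add_mul_right_left h k)
      exact (this.symm.of_isCoprime_of_dvd_left hd1)
    have h3 : ((Int.gcd c N : ℕ) : ℤ) ∣ c' := hcop.dvd_of_dvd_mul_left h1
    exact Int.natCast_dvd_natCast.mp (Int.dvd_coe_gcd h3 hd2)
  · have h1 : ((Int.gcd c' N : ℕ) : ℤ) ∣ a' * c := by
      have := (hd2'.trans hk)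
      have h2 : ((Int.gcd c' N : ℕ) : ℤ) ∣ (a + k * c) * c' := Dvd.dvd.mul_left hd1' _
      have := dvd_sub h2 this
      simpa using this
    have hcop : IsCoprime ((Int.gcd c' N : ℕ) : ℤ) a' :=
      (h'.symm.of_isCoprime_of_dvd_left hd1')
    have h3 : ((Int.gcd c' N : ℕ) : ℤ) ∣ c := hcop.dvd_of_dvd_mul_left h1
    exact Int.natCast_dvd_natCast.mp (Int.dvd_coe_gcd h3 hd2')

/-- decomposition `c = d c₁`, `N = d N₁` with `c₁`, `N₁` coprime. -/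
theorem exists_decomp (c : ℤ) {N : ℕ} (hN : N ≠ 0) :
    ∃ (c₁ : ℤ) (N₁ : ℕ), c = (Int.gcd c N : ℤ) * c₁ ∧ N = Int.gcd c N * N₁ ∧
      IsCoprime c₁ (N₁ : ℤ) ∧ c / (Int.gcd c N : ℤ) = c₁ ∧ N / Int.gcd c N = N₁ := by
  have hpos : 0 < Int.gcd c N := Int.gcd_pos_of_ne_zero_right _ (by exact_mod_cast hN)
  have hd1 : ((Int.gcd c N : ℕ) : ℤ) ∣ c := Int.gcd_dvd_left ..
  have hd2 : (Int.gcd c N : ℕ) ∣ N := Int.natCast_dvd_natCast.mp (Int.gcd_dvd_right ..)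
  obtain ⟨c₁, hc₁⟩ := hd1
  obtain ⟨N₁, hN₁⟩ := hd2
  have hne : ((Int.gcd c N : ℕ) : ℤ) ≠ 0 := by exact_mod_cast hpos.ne'
  refine ⟨c₁, N₁, hc₁, hN₁, ?_, ?_, ?_⟩
  · rw [Int.isCoprime_iff_gcd_eq_one]
    have h := Int.gcd_div_gcd_div_gcd (i := c) (j := (N : ℤ)) hpos
    have e1 : c / (Int.gcd c N : ℤ) = c₁ := Int.ediv_eq_of_eq_mul_right hne hc₁
    have e2 : (N : ℤ) / (Int.gcd c N : ℤ) = N₁ :=
      Int.ediv_eq_of_eq_mul_right hne (by exact_mod_cast hN₁)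
    rwa [e1, e2] at h
  · exact Int.ediv_eq_of_eq_mul_right hne hc₁
  · exact Nat.div_eq_of_eq_mul_right hpos hN₁

theorem zmod_ratio_eq_iff {e : ℕ} {a a' c₁ c₁' : ℤ} (h1 : IsUnit (c₁ : ZMod e))
    (h1' : IsUnit (c₁' : ZMod e)) :
    (a : ZMod e) * (c₁ : ZMod e)⁻¹ = (a' : ZMod e) * (c₁' : ZMod e)⁻¹ ↔
      (e : ℤ) ∣ a * c₁' - a' * c₁ := by
  rw [← ZMod.intCast_zmod_eq_zero_iff_dvd]
  push_cast
  have i1 := ZMod.mul_inv_of_unit _ h1
  have i1' := ZMod.mul_inv_of_unit _ h1'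
  constructor
  · intro h
    have : (a : ZMod e) * c₁' = (a' : ZMod e) * c₁ := by
      calc (a : ZMod e) * c₁' = ((a : ZMod e) * (c₁ : ZMod e)⁻¹) * (c₁ * c₁') := by
            rw [mul_assoc, ← mul_assoc ((c₁ : ZMod e)⁻¹), mul_comm ((c₁ : ZMod e)⁻¹), i1, one_mul]
        _ = ((a' : ZMod e) * (c₁' : ZMod e)⁻¹) * (c₁ * c₁') := by rw [h]
        _ = (a' : ZMod e) * c₁ * ((c₁' : ZMod e) * (c₁' : ZMod e)⁻¹) := by ring
        _ = _ := by rw [i1', mul_one]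
    rw [this, sub_self]
  · intro h
    have h2 : (a : ZMod e) * c₁' = (a' : ZMod e) * c₁ := sub_eq_zero.mp h
    calc (a : ZMod e) * (c₁ : ZMod e)⁻¹
        = ((a : ZMod e) * c₁') * ((c₁ : ZMod e)⁻¹ * (c₁' : ZMod e)⁻¹) := by
          rw [show ((a : ZMod e) * c₁') * ((c₁ : ZMod e)⁻¹ * (c₁' : ZMod e)⁻¹)
            = (a : ZMod e) * (c₁ : ZMod e)⁻¹ * ((c₁' : ZMod e) * (c₁' : ZMod e)⁻¹) by ring, i1', mul_one]
      _ = ((a' : ZMod e) * c₁) * ((c₁ : ZMod e)⁻¹ * (c₁' : ZMod e)⁻¹) := by rw [h2]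
      _ = (a' : ZMod e) * (c₁' : ZMod e)⁻¹ * ((c₁ : ZMod e) * (c₁ : ZMod e)⁻¹) := by ring
      _ = _ := by rw [i1, mul_one]

/-- the complete invariant of a first column -/
noncomputable def colInv (N : ℕ) (a c : ℤ) : Σ _ : ℕ, ℕ :=
  ⟨Int.gcd c N, ((a : ZMod (eMod N (Int.gcd c N))) *
    (((c / (Int.gcd c N : ℤ) : ℤ)) : ZMod (eMod N (Int.gcd c N)))⁻¹).val⟩

theorem eMod_ne_zero {N d : ℕ} (hd : d ≠ 0) : eMod N d ≠ 0 := by
  unfold eMod
  exact Nat.gcd_ne_zero_left hd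

theorem colInv_eq_iff {a c a' c' : ℤ} {N : ℕ} (hN : N ≠ 0) (h : IsCoprime a c)
    (h' : IsCoprime a' c') :
    colInv N a c = colInv N a' c' ↔ ∃ k : ℤ, (N : ℤ) ∣ (a + k * c) * c' - a' * c := by
  obtain ⟨c₁, N₁, hc, hNd, hcop, hdiv, hNdiv⟩ := exists_decomp c hN
  obtain ⟨c₁', N₁', hc', hNd', hcop', hdiv', hNdiv'⟩ := exists_decomp c' hN
  have hpos : Int.gcd c N ≠ 0 := (Int.gcd_pos_of_ne_zero_right _ (by exact_mod_cast hN)).ne'
  -- reduce to the case of equal gcd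
  by_cases hg : Int.gcd c N = Int.gcd c' N
  swap
  · constructor
    · intro hh
      exact absurd (congrArg Sigma.fst hh) hg
    · rintro ⟨k, hk⟩
      exact absurd (gcd_eq_of_rel h h' hk) hg
  have hN₁ : N₁' = N₁ := by rw [← hNdiv', ← hNdiv, hg]
  subst hN₁
  unfold colInv
  rw [hdiv, hdiv', ← hg]
  rw [← hg] at hc' hNd' hdiv' hNdiv'
  clear hg
  generalize Int.gcd c N = d at *
  have he : eMod N d = Nat.gcd d N₁' := by unfold eMod; rw [hNdiv]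
  have : NeZero (eMod N d) := ⟨eMod_ne_zero hpos⟩
  have hu : ∀ x : ℤ, IsCoprime x (N₁' : ℤ) → IsUnit (x : ZMod (eMod N d)) := by
    intro x hx
    rw [ZMod.coe_int_isUnit_iff_isCoprime]
    refine (hx.symm.of_isCoprime_of_dvd_left ?_)
    rw [he]
    exact Int.natCast_dvd_natCast.mpr (Nat.gcd_dvd_right _ _)
  have hcore := core_iff (a := a) (a' := a') hpos hcop hcop'
  rw [← hNd, ← hc, ← hc'] at hcore
  rw [hcore, ← he, ← zmod_ratio_eq_iff (hu _ hcop) (hu _ hcop')]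
  constructor
  · intro hh
    have := (Sigma.mk.inj_iff.mp hh).2
    exact ZMod.val_injective _ (eq_of_heq this)
  · intro hh
    rw [hh]

theorem isCoprime_col (g : SL(2, ℤ)) : IsCoprime (g 0 0) (g 1 0) := by
  refine ⟨g 1 1, -(g 0 1), ?_⟩
  have := g.det_coe
  rw [Matrix.det_fin_two] at this
  linarith

theorem inv_mul_entry (h g : SL(2, ℤ)) :
    (h⁻¹ * g) 1 0 = h 0 0 * g 1 0 - h 1 0 * g 0 0 := by
  simp [Matrix.SpecialLinearGroup.coe_mul, Matrix.SpecialLinearGroup.coe_inv,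
    Matrix.adjugate_fin_two, Matrix.mul_apply, Fin.sum_univ_two]
  ring

theorem T_zpow_mul_col (k : ℤ) (g : SL(2, ℤ)) :
    (T ^ k * g) 0 0 = g 0 0 + k * g 1 0 ∧ (T ^ k * g) 1 0 = g 1 0 := by
  constructor <;>
  simp [Matrix.SpecialLinearGroup.coe_mul, coe_T_zpow, Matrix.mul_apply, Fin.sum_univ_two]

variable (N : ℕ) [NeZero N]

/-- the set of cusps of `Γ₀(N)` as `T`-orbits on the coset space. -/
abbrev CuspOrbits : Type :=
  MulAction.orbitRel.Quotient (Subgroup.zpowers T) (SL(2, ℤ) ⧸ Gamma0 N)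

def cuspProj (g : SL(2, ℤ)) : CuspOrbits N :=
  Quotient.mk _ (g : SL(2, ℤ) ⧸ Gamma0 N)

theorem cuspProj_surjective : Function.Surjective (cuspProj N) := by
  intro q
  induction q using Quotient.inductionOn with
  | h x =>
    induction x using QuotientGroup.induction_on with
    | H g => exact ⟨g, rfl⟩

noncomputable def cuspInv (g : SL(2, ℤ)) : Σ _ : ℕ, ℕ := colInv N (g 0 0) (g 1 0)

theorem cuspProj_eq_iff (g g' : SL(2, ℤ)) :
    cuspProj N g = cuspProj N g' ↔ cuspInv N g = cuspInv N g' := by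
  unfold cuspProj cuspInv
  rw [Quotient.eq, eq_comm, colInv_eq_iff (NeZero.ne N) (isCoprime_col g') (isCoprime_col g)]
  change (g : SL(2, ℤ) ⧸ Gamma0 N) ∈ MulAction.orbit (Subgroup.zpowers T) (g' : SL(2, ℤ) ⧸ Gamma0 N) ↔ _
  constructor
  · rintro ⟨⟨t, k, rfl⟩, ht⟩
    refine ⟨k, ?_⟩
    have ht' : ((T ^ k * g' : SL(2, ℤ)) : SL(2, ℤ) ⧸ Gamma0 N) = (g : SL(2, ℤ) ⧸ Gamma0 N) := ht
    rw [QuotientGroup.eq, Gamma0_mem, inv_mul_entry, (T_zpow_mul_col k g').1,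
      (T_zpow_mul_col k g').2, ZMod.intCast_zmod_eq_zero_iff_dvd] at ht'
    convert ht' using 1
    ring
  · rintro ⟨k, hk⟩
    refine ⟨⟨T ^ k, k, rfl⟩, ?_⟩
    change ((T ^ k * g' : SL(2, ℤ)) : SL(2, ℤ) ⧸ Gamma0 N) = (g : SL(2, ℤ) ⧸ Gamma0 N)
    rw [QuotientGroup.eq, Gamma0_mem, inv_mul_entry, (T_zpow_mul_col k g').1,
      (T_zpow_mul_col k g').2, ZMod.intCast_zmod_eq_zero_iff_dvd]
    convert hk using 1
    ring

/-- the target finite set -/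
def cuspFinset : Finset (Σ _ : ℕ, ℕ) :=
  N.divisors.sigma fun d => (Finset.range (eMod N d)).filter (fun r => (eMod N d).Coprime r)

theorem card_cuspFinset : (cuspFinset N).card = ModularCurve.cuspCount N := by
  unfold cuspFinset ModularCurve.cuspCount
  rw [Finset.card_sigma]
  rfl

theorem colInv_of_gcd {N : ℕ} {a c : ℤ} {d : ℕ} (h : Int.gcd c N = d) :
    colInv N a c = ⟨d, ((a : ZMod (eMod N d)) * (((c / (d : ℤ) : ℤ)) : ZMod (eMod N d))⁻¹).val⟩ := by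
  subst h
  rfl

theorem exists_SL_col {a c : ℤ} (h : IsCoprime a c) : ∃ g : SL(2, ℤ), g 0 0 = a ∧ g 1 0 = c := by
  obtain ⟨x, y, hxy⟩ := h
  refine ⟨⟨!![a, -y; c, x], ?_⟩, rfl, rfl⟩
  rw [Matrix.det_fin_two_of]
  linarith

theorem range_cuspInv : Set.range (cuspInv N) = ↑(cuspFinset N) := by
  have hN : N ≠ 0 := NeZero.ne N
  ext ⟨d, r⟩
  simp only [Set.mem_range, cuspFinset, Finset.coe_sigma, Set.mem_sigma_iff, Finset.mem_coe,
    Nat.mem_divisors, Finset.mem_filter, Finset.mem_range]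
  constructor
  · rintro ⟨g, hg⟩
    obtain ⟨c₁, N₁, hc, hNd, hcop, hdiv, hNdiv⟩ := exists_decomp (g 1 0) hN
    have hpos : Int.gcd (g 1 0) N ≠ 0 :=
      (Int.gcd_pos_of_ne_zero_right _ (by exact_mod_cast hN)).ne'
    unfold cuspInv colInv at hg
    rw [hdiv] at hg
    have hcol := isCoprime_col g
    generalize g 0 0 = a at *
    generalize g 1 0 = c at *
    generalize Int.gcd c N = d' at *
    obtain ⟨rfl, hr⟩ := Sigma.mk.inj_iff.mp hg
    have hr' := eq_of_heq hr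
    have he : eMod N d' = Nat.gcd d' N₁ := by unfold eMod; rw [hNdiv]
    have : NeZero (eMod N d') := ⟨eMod_ne_zero hpos⟩
    have hu1 : IsUnit (c₁ : ZMod (eMod N d')) := by
      rw [ZMod.coe_int_isUnit_iff_isCoprime]
      refine (hcop.symm.of_isCoprime_of_dvd_left ?_)
      rw [he]
      exact Int.natCast_dvd_natCast.mpr (Nat.gcd_dvd_right _ _)
    have hu2 : IsUnit (a : ZMod (eMod N d')) := by
      rw [ZMod.coe_int_isUnit_iff_isCoprime]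
      refine (hcol.symm.of_isCoprime_of_dvd_left ?_)
      rw [he, hc]
      exact Dvd.dvd.mul_right (Int.natCast_dvd_natCast.mpr (Nat.gcd_dvd_left _ _)) _
    have hu : IsUnit ((a : ZMod (eMod N d')) * (c₁ : ZMod (eMod N d'))⁻¹) :=
      hu2.mul (ZMod.isUnit_inv hu1)
    refine ⟨⟨⟨N₁, hNd⟩, hN⟩, ?_, ?_⟩
    · rw [← hr']
      exact ZMod.val_lt _
    · rw [← hr']
      obtain ⟨u, hu'⟩ := hu
      rw [← hu']
      exact (ZMod.val_coe_unit_coprime u).symm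
  · rintro ⟨⟨hdN, -⟩, hr, hcop⟩
    have hd0 : d ≠ 0 := by
      rintro rfl
      exact hN (Nat.eq_zero_of_zero_dvd hdN)
    have : NeZero d := ⟨hd0⟩
    have hed : eMod N d ∣ d := Nat.gcd_dvd_left _ _
    obtain ⟨v, hv⟩ := ZMod.unitsMap_surjective hed (ZMod.unitOfCoprime r hcop.symm)
    have hvcop := ZMod.val_coe_unit_coprime v
    have hco : IsCoprime (((v : ZMod d).val : ℕ) : ℤ) (d : ℤ) := Nat.isCoprime_iff_coprime.mpr hvcop
    obtain ⟨g, hg0, hg1⟩ := exists_SL_col hco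
    refine ⟨g, ?_⟩
    unfold cuspInv
    rw [hg0, hg1]
    have hgcd : Int.gcd (d : ℤ) (N : ℤ) = d := by
      rw [Int.gcd_natCast_natCast]
      exact Nat.gcd_eq_left hdN
    rw [colInv_of_gcd hgcd]
    congr 1
    have h1 : ((d : ℤ) / (d : ℤ)) = 1 := Int.ediv_self (by exact_mod_cast hd0)
    rw [h1]
    have h2 : ((((v : ZMod d).val : ℕ) : ℤ) : ZMod (eMod N d)) = (r : ZMod (eMod N d)) := by
      have := congrArg (fun u : (ZMod (eMod N d))ˣ => (u : ZMod (eMod N d))) hv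
      simp only [ZMod.unitsMap_val, ZMod.coe_unitOfCoprime] at this
      rw [← this]
      simp [ZMod.natCast_val]
    rw [h2]
    simp [ZMod.val_cast_of_lt hr]

theorem card_orbits_T :
    Nat.card (MulAction.orbitRel.Quotient (Subgroup.zpowers T) (SL(2, ℤ) ⧸ Gamma0 N)) =
      ModularCurve.cuspCount N := by
  have hker : Setoid.ker (cuspProj N) = Setoid.ker (cuspInv N) := by
    ext g g'
    exact cuspProj_eq_iff N g g'
  have e1 : CuspOrbits N ≃ Quotient (Setoid.ker (cuspProj N)) :=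
    (Setoid.quotientKerEquivOfSurjective _ (cuspProj_surjective N)).symm
  have e2 : Quotient (Setoid.ker (cuspInv N)) ≃ Set.range (cuspInv N) :=
    Setoid.quotientKerEquivRange _
  rw [hker] at e1
  rw [Nat.card_congr (e1.trans e2), range_cuspInv, ← card_cuspFinset]
  simp

end Fermat.Agent.Lib.Count
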