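import Mathlib
import Fermat.Prelude.Def_ModularCurve_GenusNumerics

/-!
# Fixed points of `S` and `S * T` on `SL(2,ℤ) ⧸ Γ₀(N)`

The coset `g Γ₀(N)` only depends on the first column `(a, c)` of `g` modulo `N` up to units:
`g Γ₀(N) = h Γ₀(N) ↔ a_g c_h = c_g a_h` in `ZMod N`.
-/

namespace Fermat.Agent.Lib.Count.FixPoints

open CongruenceSubgroup Matrix MatrixGroups ModularGroup

variable {N : ℕ}

/-- Coset criterion: `g Γ₀(N) = h Γ₀(N)` iff the first columns are proportional mod `N`. -/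
theorem coset_eq_iff (g h : SL(2, ℤ)) :
    ((g : SL(2, ℤ) ⧸ Gamma0 N) = (h : SL(2, ℤ) ⧸ Gamma0 N)) ↔
      ((g 0 0 : ℤ) : ZMod N) * ((h 1 0 : ℤ) : ZMod N)
        = ((g 1 0 : ℤ) : ZMod N) * ((h 0 0 : ℤ) : ZMod N) := by
  rw [QuotientGroup.eq, Gamma0_mem]
  have : (g⁻¹ * h) 1 0 = g 0 0 * h 1 0 - g 1 0 * h 0 0 := by
    rw [Matrix.SpecialLinearGroup.coe_mul, Matrix.SpecialLinearGroup.coe_inv,
      Matrix.adjugate_fin_two, Matrix.mul_apply]
    simp [Fin.sum_univ_two]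
    ring
  rw [this]
  push_cast
  rw [sub_eq_zero]

/-- The determinant relation in `ZMod N`. -/
theorem det_cast (g : SL(2, ℤ)) :
    ((g 0 0 : ℤ) : ZMod N) * ((g 1 1 : ℤ) : ZMod N)
      - ((g 0 1 : ℤ) : ZMod N) * ((g 1 0 : ℤ) : ZMod N) = 1 := by
  have h := g.det_coe
  rw [Matrix.det_fin_two] at h
  have := congrArg (fun z : ℤ => (z : ZMod N)) h
  simpa using this

/-- The lower unipotent matrix with lower-left entry `c`. -/
def lowerUni (c : ℤ) : SL(2, ℤ) :=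
  ⟨!![1, 0; c, 1], by simp [Matrix.det_fin_two]⟩

@[simp] theorem lowerUni_zero_zero (c : ℤ) : lowerUni c 0 0 = 1 := rfl
@[simp] theorem lowerUni_one_zero (c : ℤ) : lowerUni c 1 0 = c := rfl

/-- If the first column `(a, c)` satisfies `a² + t a c + c² = 0` mod `N`, then `a` is a unit. -/
theorem exists_inv_of_quadratic (g : SL(2, ℤ)) (t : ZMod N)
    (h : ((g 0 0 : ℤ) : ZMod N) ^ 2 + t * ((g 0 0 : ℤ) : ZMod N) * ((g 1 0 : ℤ) : ZMod N)
      + ((g 1 0 : ℤ) : ZMod N) ^ 2 = 0) :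
    ∃ u : ZMod N, ((g 0 0 : ℤ) : ZMod N) * u = 1 := by
  have hd := det_cast (N := N) g
  set a := ((g 0 0 : ℤ) : ZMod N)
  set b := ((g 0 1 : ℤ) : ZMod N)
  set c := ((g 1 0 : ℤ) : ZMod N)
  set d := ((g 1 1 : ℤ) : ZMod N)
  refine ⟨2 * d - a * d ^ 2 - b ^ 2 * (a + t * c), ?_⟩
  linear_combination (1 - a * d - b * c) * hd - b ^ 2 * h

/-- General fixed point count: if the fixed cosets of `M` are cut out by the quadratic
condition `a² + t a c + c² = 0` on first columns, they are counted by the roots of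
`x² + t x + 1` in `ZMod N`. -/
theorem card_fixedBy_of_quadratic (M : SL(2, ℤ)) (t : ZMod N)
    (hM : ∀ g : SL(2, ℤ), M • (g : SL(2, ℤ) ⧸ Gamma0 N) = (g : SL(2, ℤ) ⧸ Gamma0 N) ↔
      ((g 0 0 : ℤ) : ZMod N) ^ 2 + t * ((g 0 0 : ℤ) : ZMod N) * ((g 1 0 : ℤ) : ZMod N)
        + ((g 1 0 : ℤ) : ZMod N) ^ 2 = 0) :
    Nat.card (MulAction.fixedBy (SL(2, ℤ) ⧸ Gamma0 N) M)
      = Nat.card {x : ZMod N // x ^ 2 + t * x + 1 = 0} := by
  let f : {x : ZMod N // x ^ 2 + t * x + 1 = 0} → MulAction.fixedBy (SL(2, ℤ) ⧸ Gamma0 N) M :=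
    fun x => ⟨(lowerUni (x.1.cast : ℤ) : SL(2, ℤ) ⧸ Gamma0 N), by
      rw [MulAction.mem_fixedBy, hM]
      simp only [lowerUni_zero_zero, lowerUni_one_zero, ZMod.intCast_zmod_cast, Int.cast_one]
      linear_combination x.2⟩
  have hinj : Function.Injective f := by
    intro x y hxy
    have := congrArg Subtype.val hxy
    simp only [f] at this
    rw [coset_eq_iff] at this
    simp only [lowerUni_zero_zero, lowerUni_one_zero, ZMod.intCast_zmod_cast, Int.cast_one,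
      one_mul, mul_one] at this
    exact Subtype.ext this.symm
  have hsurj : Function.Surjective f := by
    rintro ⟨q, hq⟩
    induction q using QuotientGroup.induction_on with
    | H g =>
      rw [MulAction.mem_fixedBy, hM] at hq
      obtain ⟨u, hu⟩ := exists_inv_of_quadratic g t hq
      refine ⟨⟨((g 1 0 : ℤ) : ZMod N) * u, ?_⟩, ?_⟩
      · linear_combination u ^ 2 * hq
          - (((g 0 0 : ℤ) : ZMod N) * u + 1 + t * ((g 1 0 : ℤ) : ZMod N) * u) * hu
      · apply Subtype.ext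
        simp only [f]
        rw [coset_eq_iff]
        simp only [lowerUni_zero_zero, lowerUni_one_zero, ZMod.intCast_zmod_cast, Int.cast_one,
          one_mul]
        linear_combination (-((g 1 0 : ℤ) : ZMod N)) * hu
  exact (Nat.card_congr (Equiv.ofBijective f ⟨hinj, hsurj⟩)).symm

theorem S_smul_eq_iff (g : SL(2, ℤ)) :
    S • (g : SL(2, ℤ) ⧸ Gamma0 N) = (g : SL(2, ℤ) ⧸ Gamma0 N) ↔
      ((g 0 0 : ℤ) : ZMod N) ^ 2 + 0 * ((g 0 0 : ℤ) : ZMod N) * ((g 1 0 : ℤ) : ZMod N)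
        + ((g 1 0 : ℤ) : ZMod N) ^ 2 = 0 := by
  rw [MulAction.Quotient.smul_coe, smul_eq_mul, eq_comm, coset_eq_iff]
  have h00 : (S * g) 0 0 = - g 1 0 := by
    rw [Matrix.SpecialLinearGroup.coe_mul, Matrix.mul_apply]
    simp [Fin.sum_univ_two, S]
  have h10 : (S * g) 1 0 = g 0 0 := by
    rw [Matrix.SpecialLinearGroup.coe_mul, Matrix.mul_apply]
    simp [Fin.sum_univ_two, S]
  rw [h00, h10]
  push_cast
  constructor
  · intro h; linear_combination h
  · intro h; linear_combination h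

theorem ST_smul_eq_iff (g : SL(2, ℤ)) :
    (S * T) • (g : SL(2, ℤ) ⧸ Gamma0 N) = (g : SL(2, ℤ) ⧸ Gamma0 N) ↔
      ((g 0 0 : ℤ) : ZMod N) ^ 2 + 1 * ((g 0 0 : ℤ) : ZMod N) * ((g 1 0 : ℤ) : ZMod N)
        + ((g 1 0 : ℤ) : ZMod N) ^ 2 = 0 := by
  rw [MulAction.Quotient.smul_coe, smul_eq_mul, eq_comm, coset_eq_iff]
  have h00 : (S * T * g) 0 0 = - g 1 0 := by
    rw [Matrix.SpecialLinearGroup.coe_mul, Matrix.SpecialLinearGroup.coe_mul, Matrix.mul_apply]
    simp [Fin.sum_univ_two, S, T, Matrix.mul_apply]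
  have h10 : (S * T * g) 1 0 = g 0 0 + g 1 0 := by
    rw [Matrix.SpecialLinearGroup.coe_mul, Matrix.SpecialLinearGroup.coe_mul, Matrix.mul_apply]
    simp [Fin.sum_univ_two, S, T, Matrix.mul_apply]
  rw [h00, h10]
  push_cast
  constructor
  · intro h; linear_combination h
  · intro h; linear_combination h

end Fermat.Agent.Lib.Count.FixPoints

namespace Fermat.Agent.Lib.Count

open CongruenceSubgroup Matrix MatrixGroups ModularGroup FixPoints

/-- The number of cosets of `Γ₀(N)` fixed by `S` is `ν₂(N)`. -/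
theorem card_fixedBy_S (N : ℕ) :
    Nat.card (MulAction.fixedBy (SL(2, ℤ) ⧸ Gamma0 N) S) = ModularCurve.nuTwo N := by
  rw [card_fixedBy_of_quadratic S 0 S_smul_eq_iff, ModularCurve.nuTwo]
  simp only [zero_mul, add_zero]

/-- The number of cosets of `Γ₀(N)` fixed by `S * T` is `ν₃(N)`. -/
theorem card_fixedBy_ST (N : ℕ) :
    Nat.card (MulAction.fixedBy (SL(2, ℤ) ⧸ Gamma0 N) (S * T)) = ModularCurve.nuThree N := by
  rw [card_fixedBy_of_quadratic (S * T) 1 ST_smul_eq_iff, ModularCurve.nuThree]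
  simp only [one_mul]

end Fermat.Agent.Lib.Count
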